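import Mathlib
import Fermat.Agent.LT.T7.H826.Level2Q
import Fermat.Agent.LT.T7.H893.SupplySpec

/-!
# Row LT, tower T7, node T7.L2Q.1 `SupplyQC` (sub-architect helper60): FIRST CUT -- Spec

OFF-MAIN.  Definitions and frozen Props only (the proved top is `SupplyQTop.lean`).  No hole,
nothing assumed.  ADDITIVE (new names only, all in `Fermat.Agent.LT.T7.L2Q.H60`).
Vocabulary: `T7/H826/Level2Q.lean` (helper826, sha256 3acaa310b421ebd6) and its imports;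
`T7/H893/SupplySpec.lean` (helper893, the cyclic first cut; only `H893.ProjC` is used), byte-identical
copies.

    supplyQC_of60 : SetupQC F → H893.ProjC F → H893.ProjC ℚ → ProjW1C → FamQC P F
                      → L2Q.SupplyQC P F
    supplyQSC_of60 : (the same hypotheses) → SupplyQSC P F     (STABLE form: `𝔑₀ = 𝔫₀ 𝒪_F`)

## The cut (mirror of the cyclic first cut of helper893, with `K = ℚ`, `ℓ = 2`)

`L2Q.SupplyQC P F` asks for ONE datum `Dt : L2QData F` with the fields of `IsL2QData`.  The datum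
has a COMMON part (`σ`, frames, base level `𝔑₀`, `S'`, `S`, the split prime `u` and its orbit) and
a part which depends on the bad element `g` (level `𝔫 g`, scalar `c g`, the family `φ' g`, the TWO
families `f w0 g`, `f w1 g`, the depth `m₀ g`); every field of `IsL2QData` is either about the
common part or about ONE bad `g`.

* **`SetupQC F`** (leaf C0; algebraic number theory + adapters of T1): the common part exists,
  `L2QBase` with `IsL2QBase`.  As in the cyclic case `IsL2QBase` carries MORE than the common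
  fields of `IsL2QData`: the hypotheses of `IsCompData` which do not depend on the level, and the
  facts needed by the construction of the families (`base_level`, `orbit_all`, `fibre`), and
  `under_exact` (`S` is EXACTLY the set of primes under `S'`: the base change relation
  `IsBCDataQ … S` of OP-down is given outside `S`, the word lives outside `S'`).
* **`H893.ProjC F`, `H893.ProjC ℚ`** (leaf of helper893/helper3, ONE field, trivial type): the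
  orthogonal projection upstairs and downstairs for the type `w0`
  (`IsWFnQ w0 = IsWFn … 1 (fun _ => u)`, lemma `isWFnQ_w0_iff60`).
* **`ProjW1C`** (leaf C3a', ONE field `ℚ`, type weight one): the same averaging for the
  `K_∞`-type `wtOne`.  General typed form: `ProjTC K τ`.
* **`FamQC P F`** (NODE C1 + C2 + C3b): for a common part and ONE bad `g` the part depending on
  `g` exists, `L2QFam` with `IsL2QFam` = the fields of `IsL2QData` at `g` except the projections.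
  Second cut: `SupplyQFam*.lean` (same directory).
-/

set_option autoImplicit false

open AutomorphicForm IsDedekindDomain NumberField MeasureTheory
open scoped ComplexConjugate

noncomputable section

namespace Fermat.Agent.LT.T7.L2Q.H60

open Fermat.Agent.LT.H556 Fermat.Agent.LT.H556.A0 Fermat.Agent.LT.T7 Fermat.Agent.LT.T7.L2Q

attribute [local instance] Fermat.Agent.LT.T5.instMeasurableSpaceG

/-! ## 1. The common part -/

section Base

variable (F : Type) [Field F] [NumberField F]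

/-- The COMMON part of an `L2QData`. -/
structure L2QBase where
  /-- the conjugation of `F` with its extension to the adeles -/
  s : T5.AdelicAut F
  /-- the image of `ℚ` in `F` -/
  k : Subfield F
  /-- the frame downstairs -/
  R : Frame5 ℚ
  /-- the frame upstairs -/
  R' : Frame5 F
  /-- the base level upstairs -/
  𝔑₀ : Ideal (𝓞 F)
  /-- the places of `F` dividing the base level -/
  S' : Finset (HeightOneSpectrum (𝓞 F))
  /-- the primes of `ℚ` under `S'` -/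
  S : Finset ℕ
  /-- the regular place of `ℚ` -/
  u : HeightOneSpectrum (𝓞 ℚ)
  /-- the `σ`-orbit over `u` -/
  o : ℕ → HeightOneSpectrum (𝓞 F)

/-- The part of an `L2QData` which depends on the bad element (for ONE bad element). -/
structure L2QFam where
  /-- the level downstairs -/
  𝔫 : Ideal (𝓞 ℚ)
  /-- the scalar of the Eisenstein-killing base on the eigen-classes -/
  c : EigData F → ℂ
  /-- the family upstairs -/
  φ' : List (Gen F) → ℤ → ℕ → G F → ℂ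
  /-- the two families downstairs (trivial type, weight one) -/
  f : QWt → List (Gen F) → ℤ → ℕ → G ℚ → ℂ
  /-- the regular depth -/
  m₀ : List (Gen F) → ℕ

variable {F}

/-- The extension of an ideal of `ℚ` to `F`. -/
def upQ (𝔫 : Ideal (𝓞 ℚ)) : Ideal (𝓞 F) := Ideal.map (algebraMap (𝓞 ℚ) (𝓞 F)) 𝔫

/-- `g` is supported at the bad places (`L2QData.IsBad` for the common part). -/
def L2QBase.IsBad (B : L2QBase F) (g : G F) : Prop :=
  (∀ w : InfinitePlace F, TrivAtInf w g) ∧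
    ∀ v : HeightOneSpectrum (𝓞 F), (v ∉ B.S' ∨ ∃ j < 2, v = B.o j) → TrivAtFin v g

/-- The data of the comparison for the level `𝔫` downstairs (`L2QData.comp`). -/
def L2QBase.comp (B : L2QBase F) (𝔫 : Ideal (𝓞 ℚ)) : CompData ℚ F where
  l := 2
  s := B.s
  k := B.k
  𝔫 := 𝔫
  𝔑 := upQ (F := F) 𝔫
  R := B.R
  R' := B.R'

/-- The sum of the two members downstairs (`L2QData.fsum`). -/
def L2QFam.fsum (Fm : L2QFam F) (X : List (Gen F)) (k : ℤ) (m : ℕ) : G ℚ → ℂ :=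
  fun x => Fm.f QWt.w0 X k m x + Fm.f QWt.w1 X k m x

/-- The `L2QData` with common part `B` and `g`-part `Fm g`. -/
def L2QBase.toData (B : L2QBase F) (Fm : G F → L2QFam F) : L2QData F where
  s := B.s
  k := B.k
  R := B.R
  R' := B.R'
  𝔑₀ := B.𝔑₀
  S' := B.S'
  S := B.S
  u := B.u
  o := B.o
  𝔫 := fun g => (Fm g).𝔫
  c := fun g => (Fm g).c
  φ' := fun g => (Fm g).φ'
  f := fun n g => (Fm g).f n
  m₀ := fun g => (Fm g).m₀

/-- **THE PROPERTIES OF THE COMMON PART** (quadratic step). -/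
structure IsL2QBase (Φ : HeckeEigensystem F ℂ) (B : L2QBase F) : Prop where
  /-- `σ` generates a group of order `2` with fixed field `k` -/
  cyc : T5.IsCyclicOfDegree B.s 2 B.k
  /-- `k` is the image of `ℚ` -/
  base : ∀ x : F, x ∈ B.k ↔ ∃ y : ℚ, algebraMap ℚ F y = x
  frame : IsFrame5 B.R
  frame' : IsFrame5 B.R'
  /-- `σ` preserves the frame upstairs, for every level which comes from `ℚ` -/
  aut : ∀ 𝔫 : Ideal (𝓞 ℚ), T5.AutPreserves B.s (upQ (F := F) 𝔫) B.R'.μ B.R'.r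
  level_le : B.𝔑₀ ≤ Φ.level
  mem_S' : ∀ w : HeightOneSpectrum (𝓞 F), w ∈ B.S' ↔ w.asIdeal ∣ B.𝔑₀
  /-- the primes under `S'` lie in `S` -/
  under : ∀ p : ℕ, p.Prime → ∀ w : HeightOneSpectrum (𝓞 F), ((p : ℕ) : 𝓞 F) ∈ w.asIdeal →
    w ∈ B.S' → p ∈ B.S
  /-- `S` consists of primes under `S'` -/
  under_exact : ∀ p ∈ B.S, p.Prime ∧
    ∃ w : HeightOneSpectrum (𝓞 F), w ∈ B.S' ∧ ((p : ℕ) : 𝓞 F) ∈ w.asIdeal
  const : ∀ p : ℕ, p.Prime → p ∉ B.S →
    ∀ w w' : HeightOneSpectrum (𝓞 F), ((p : ℕ) : 𝓞 F) ∈ w.asIdeal →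
      ((p : ℕ) : 𝓞 F) ∈ w'.asIdeal → Φ.a w = Φ.a w' ∧ Φ.b w = Φ.b w'
  orbit_rel : ∀ j : ℕ, T5.PlaceRel B.s (B.o j) (B.o (j + 1))
  orbit_ne : ∀ j : ℕ, 0 < j → j < 2 → B.o j ≠ B.o 0
  orbit_over : ∀ j : ℕ, PlaceOver ℚ F B.u (B.o j)
  orbit_level : ∀ j : ℕ, B.o j ∈ B.S'
  orbit_good : ∀ j : ℕ, ¬ (B.o j).asIdeal ∣ Φ.level
  /-- the base level comes from `ℚ`, and `u` divides it exactly once -/
  base_level : ∃ 𝔫₀ : Ideal (𝓞 ℚ), 𝔫₀ ≠ ⊥ ∧ B.𝔑₀ = upQ (F := F) 𝔫₀ ∧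
    B.u.asIdeal ∣ 𝔫₀ ∧ ¬ B.u.asIdeal ^ 2 ∣ 𝔫₀
  /-- the orbit is the set of all places over `u` -/
  orbit_all : ∀ w : HeightOneSpectrum (𝓞 F), PlaceOver ℚ F B.u w → ∃ j < 2, w = B.o j
  /-- `S'` is a union of fibres -/
  fibre : ∀ p : ℕ, p.Prime → ∀ w w' : HeightOneSpectrum (𝓞 F),
    ((p : ℕ) : 𝓞 F) ∈ w.asIdeal → ((p : ℕ) : 𝓞 F) ∈ w'.asIdeal → w ∈ B.S' → w' ∈ B.S'

/-! ## 2. The part depending on the bad element -/

/-- **THE PROPERTIES OF THE `g`-PART** (the fields of `IsL2QData` at the bad element `g`, except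
the orthogonal projections; `level_ne` is the field of `IsCompData`). -/
structure IsL2QFam (Φ : HeckeEigensystem F ℂ) (B : L2QBase F) (g : G F) (Fm : L2QFam F) :
    Prop where
  level_ne : Fm.𝔫 ≠ ⊥
  level_g : upQ (F := F) Fm.𝔫 ≤ B.𝔑₀
  mem_S'_g : ∀ w : HeightOneSpectrum (𝓞 F), w ∈ B.S' ↔ w.asIdeal ∣ upQ (F := F) Fm.𝔫
  u_level : B.u.asIdeal ∣ Fm.𝔫
  ekprod_up : ∀ (X : List (Gen F)) (k : ℤ) (m : ℕ), (∀ x ∈ X, x.Out B.S') →
    IsEKProd (upQ (F := F) Fm.𝔫) B.R' (Fm.φ' X k m)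
  ekprod_down : ∀ (n : QWt) (X : List (Gen F)) (k : ℤ) (m : ℕ), (∀ x ∈ X, x.Out B.S') →
    IsEKProdT n.type Fm.𝔫 B.R (Fm.f n X k m)
  reg_up : ∀ (X : List (Gen F)) (k : ℤ) (m : ℕ), (∀ x ∈ X, x.Out B.S') → Fm.m₀ X ≤ m →
    T5.IsTwRegular B.s 2 B.k (Fm.φ' X k m)
  reg_down : ∀ (n : QWt) (X : List (Gen F)) (k : ℤ) (m : ℕ), (∀ x ∈ X, x.Out B.S') →
    Fm.m₀ X ≤ m → T5.IsTwRegular (T5.AdelicAut.id ℚ) 1 ⊤ (Fm.f n X k m)
  matched : ∀ (X : List (Gen F)) (k : ℤ) (m : ℕ), (∀ x ∈ X, x.Out B.S') → Fm.m₀ X ≤ m →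
    IsGlobMatch (B.comp Fm.𝔫) (Fm.φ' X k m) (Fm.fsum X k m)
  base_ne : ∀ C : EigData F, C.AgreeOut B.S' (eigOf Φ) → Fm.c C ≠ 0
  op_up : ∀ (X : List (Gen F)) (k : ℤ) (m : ℕ), (∀ x ∈ X, x.Out B.S') →
    ∀ (ψ : G F → ℂ) (C : EigData F), IsEigFn B.𝔑₀ B.R'.r 2 B.o ψ C →
    ∀ (Hg H : Finset (G F)) (z : G F), IsDblCosetSystem B.𝔑₀ g Hg →
      IsIwCosetSystem (B.o 0) H → IsScalarUniformizerAt (B.o 0) z →
      ∀ x : G F, T5.Rconv B.R'.μ (Fm.φ' X k m) ψ x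
        = wordEv X C * Fm.c C * cosetOp Hg (shiftOp z k ((iwOp (B.o 0) H)^[m] ψ)) x
  kill_up : ∀ (X : List (Gen F)) (k : ℤ) (m : ℕ), (∀ x ∈ X, x.Out B.S') →
    ∀ ψ : G F → ℂ, T5.IsCuspFn (upQ (F := F) Fm.𝔫) T5.trivType B.R'.r ψ →
      (∀ χ : G F → ℂ, IsWFn B.𝔑₀ B.R'.r 2 B.o χ →
        T5.innerD B.R'.μ B.R'.F ψ χ = 0) →
      ∀ x : G F, T5.Rconv B.R'.μ (Fm.φ' X k m) ψ x = 0
  op_down : ∀ (n : QWt) (X : List (Gen F)) (k : ℤ) (m : ℕ), (∀ x ∈ X, x.Out B.S') →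
    ∀ (ψ : G ℚ → ℂ) (c : EigData ℚ) (C : EigData F),
      IsEigFnQ n Fm.𝔫 B.R.r B.u ψ c → IsBCDataQ n c C B.S →
    ∀ (H : Finset (G ℚ)) (z : G ℚ), IsIwCosetSystem B.u H → IsScalarUniformizerAt B.u z →
      ∀ x : G ℚ, T5.Rconv B.R.μ (Fm.f n X k m) ψ x
        = wordEv X C
          * T5.Rconv B.R.μ (Fm.f n [] 0 0) (shiftOp z k ((iwOp B.u H)^[m] ψ)) x
  class_down : ∀ (n : QWt) (ψ : G ℚ → ℂ) (c : EigData ℚ),
    IsEigFnQ n Fm.𝔫 B.R.r B.u ψ c →
    IsEigFnQ n Fm.𝔫 B.R.r B.u (T5.Rconv B.R.μ (Fm.f n [] 0 0) ψ) c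
  comm_down : ∀ (n : QWt) (ψ : G ℚ → ℂ), IsWFnQ n Fm.𝔫 B.R.r B.u ψ →
    ∀ (H : Finset (G ℚ)) (z : G ℚ), IsIwCosetSystem B.u H → IsScalarUniformizerAt B.u z →
      (∀ x : G ℚ, T5.Rconv B.R.μ (Fm.f n [] 0 0) (iwOp B.u H ψ) x
        = iwOp B.u H (T5.Rconv B.R.μ (Fm.f n [] 0 0) ψ) x) ∧
      ∀ (k : ℤ) (x : G ℚ), T5.Rconv B.R.μ (Fm.f n [] 0 0) (shiftOp z k ψ) x
        = shiftOp z k (T5.Rconv B.R.μ (Fm.f n [] 0 0) ψ) x
  kill_down : ∀ (n : QWt) (X : List (Gen F)) (k : ℤ) (m : ℕ), (∀ x ∈ X, x.Out B.S') →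
    ∀ ψ : G ℚ → ℂ, T5.IsCuspFn Fm.𝔫 n.type B.R.r ψ →
      (∀ χ : G ℚ → ℂ, IsWFnQ n Fm.𝔫 B.R.r B.u χ →
        T5.innerD B.R.μ B.R.F ψ χ = 0) →
      ∀ x : G ℚ, T5.Rconv B.R.μ (Fm.f n X k m) ψ x = 0

end Base

/-! ## 3. The leaves of the first cut -/

section Leaves

/-- The INVARIANT cusp functions OF TYPE `τ` (`IsWFn` is the case `τ = 1`; `IsWFnQ n` is the
case `K = ℚ`, `τ = n.type`, `l = 1`). -/
structure IsWFnT {K : Type} [Field K] [NumberField K] (τ : G K → ℂ) (𝔫 : Ideal (𝓞 K)) (r : G K)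
    (l : ℕ) (o : ℕ → HeightOneSpectrum (𝓞 K)) (ψ : G K → ℂ) : Prop where
  cusp : T5.IsCuspFn 𝔫 τ r ψ
  arch_scalar : ∀ (w : InfinitePlace K) (z : G K), IsArchPosScalar w z →
    ∀ g : G K, ψ (g * z) = ψ g
  iw : IsIwInv l o ψ

/-- **LEAF (general typed form of `H893.ProjC`): PROJ for the `K_∞`-type `τ`.**  For a frame, a
base level `𝔫₀`, a level `𝔫 ⊆ 𝔫₀`, `𝔫 ≠ 0`, and places `o j ∣ 𝔫₀`: every cusp function `ψ` of
level `𝔫` and type `τ` has an orthogonal projection on the invariant cusp functions of type `τ`.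
Proof.  As for `H893.ProjC` (average of the right translates over the finite group `H / U(𝔫)` and
over the compact torus `A_∞ / ⟨r⟩ Λ`): the right translations by elements which are trivial at
infinity, and by the central elements, commute with the right translations by `K_∞`, so the
averages preserve the type `τ`. -/
def ProjTC (K : Type) [Field K] [NumberField K] (τ : G K → ℂ) : Prop :=
  T5.IsKType τ →
  ∀ R : Frame5 K, IsFrame5 R →
    ∀ 𝔫₀ 𝔫 : Ideal (𝓞 K), 𝔫 ≠ ⊥ → 𝔫 ≤ 𝔫₀ →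
    ∀ (l : ℕ) (o : ℕ → HeightOneSpectrum (𝓞 K)), (∀ j : ℕ, (o j).asIdeal ∣ 𝔫₀) →
    ∀ ψ : G K → ℂ, T5.IsCuspFn 𝔫 τ R.r ψ →
      ∃ ψ₁ : G K → ℂ, IsWFnT τ 𝔫₀ R.r l o ψ₁ ∧
        ∀ χ : G K → ℂ, IsWFnT τ 𝔫₀ R.r l o χ →
          T5.innerD R.μ R.F (fun x => ψ x - ψ₁ x) χ = 0

/-- **LEAF T7.L2Q.1.C3a' = PROJ for WEIGHT ONE over `ℚ`** (`ProjTC ℚ wtOne` without the
hypothesis `IsKType`, which is the closed leaf `L2Q.WtOneKTypeC` of helper826). -/
def ProjW1C : Prop :=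
  ∀ R : Frame5 ℚ, IsFrame5 R →
    ∀ 𝔫₀ 𝔫 : Ideal (𝓞 ℚ), 𝔫 ≠ ⊥ → 𝔫 ≤ 𝔫₀ →
    ∀ (l : ℕ) (o : ℕ → HeightOneSpectrum (𝓞 ℚ)), (∀ j : ℕ, (o j).asIdeal ∣ 𝔫₀) →
    ∀ ψ : G ℚ → ℂ, T5.IsCuspFn 𝔫 wtOne R.r ψ →
      ∃ ψ₁ : G ℚ → ℂ, IsWFnT wtOne 𝔫₀ R.r l o ψ₁ ∧
        ∀ χ : G ℚ → ℂ, IsWFnT wtOne 𝔫₀ R.r l o χ →
          T5.innerD R.μ R.F (fun x => ψ x - ψ₁ x) χ = 0

variable (P : EKCond)
variable (F : Type) [Field F] [NumberField F]

/-- **LEAF T7.L2Q.1.C0 = SETUP over `ℚ`** (algebraic number theory + adapters of T1).  The common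
part exists.
Proof.  `F = ℚ(√-3)` (imaginary quadratic with a square root of `-3`); `σ` = the conjugation of
`F`, extended to the adeles (T1 adapters); `k` = the image of `ℚ`; frames: `T1.FundDomC`,
`T1.UnimodC` for `ℚ` and `F` (`σ` preserves every Haar measure, the ray generator, the slab, the
level groups of the levels coming from `ℚ`, `U(2)` at the complex place); `u` = a prime number
`p ≡ 1 mod 3` (it splits in `F`), prime to `Φ.level` and outside the exceptional set of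
`ConstOnFibresQ`; `o 0`, `o 1 = σ (o 0)` the two places over `u`, `o (j + 2) = o j`;
`𝔫₀ = u · (Φ.level ∩ ℤ) · ∏ (the exceptional primes)`, `𝔑₀ = 𝔫₀ 𝒪_F`, `S'` = the prime divisors
of `𝔑₀`, `S` = the prime numbers dividing `𝔫₀`. -/
def SetupQC : Prop :=
  HasSqrtNegThree F → IsImagQuad F →
    ∀ Φ : HeckeEigensystem F ℂ, A0.IsCuspAdelicSph0 F Φ → ConstOnFibresQ Φ →
      ∃ B : L2QBase F, IsL2QBase Φ B

/-- **NODE T7.L2Q.1.F = FAMILIES over `ℚ`** (C1 + C2 + C3b): for a common part and ONE bad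
element `g` the part depending on `g` exists.  See `IsL2QFam`, the header of
`T7/H826/Level2Q.lean` and the second cut. -/
def FamQC : Prop :=
  HasSqrtNegThree F → IsImagQuad F →
    ∀ Φ : HeckeEigensystem F ℂ, A0.IsCuspAdelicSph0 F Φ → ConstOnFibresQ Φ → P F Φ →
      ∀ B : L2QBase F, IsL2QBase Φ B → ∀ g : G F, B.IsBad g →
        ∃ Fm : L2QFam F, IsL2QFam Φ B g Fm

/-- `L2QData.IsStable`: the base level is the extension of a non-zero ideal of `ℚ` (mirror of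
`T7.L2Data.IsStable`, `T7/Level2S.lean` of helper797). -/
def IsStableQ {F : Type} [Field F] [NumberField F] (Dt : L2QData F) : Prop :=
  ∃ 𝔫₀ : Ideal (𝓞 ℚ), 𝔫₀ ≠ ⊥ ∧ Dt.𝔑₀ = Ideal.map (algebraMap (𝓞 ℚ) (𝓞 F)) 𝔫₀

/-- **NODE T7.L2Q.1, STABLE form**: `L2Q.SupplyQC` with a Galois-stable base level. -/
def SupplyQSC : Prop :=
  HasSqrtNegThree F → IsImagQuad F →
    ∀ Φ : HeckeEigensystem F ℂ, A0.IsCuspAdelicSph0 F Φ → ConstOnFibresQ Φ → P F Φ →
      ∃ Dt : L2QData F, IsL2QData Φ Dt ∧ IsStableQ Dt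

end Leaves

end Fermat.Agent.LT.T7.L2Q.H60

end
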