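import Mathlib
import Fermat.Agent.LT.T7.H60.SupplyQSpec

/-!
# Row LT, tower T7, node T7.L2Q.1 `SupplyQC` (sub-architect helper60): FIRST CUT -- proved top

OFF-MAIN.  No hole, nothing assumed.  ADDITIVE.

    supplyQSC_of60 : SetupQC F → H893.ProjC F → H893.ProjC ℚ → ProjW1C → FamQC P F
                       → SupplyQSC P F
    supplyQC_of60  : (the same) → L2Q.SupplyQC P F                 (target VERBATIM)
-/

set_option autoImplicit false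

open AutomorphicForm IsDedekindDomain NumberField MeasureTheory
open scoped ComplexConjugate

noncomputable section

namespace Fermat.Agent.LT.T7.L2Q.H60

open Fermat.Agent.LT.H556 Fermat.Agent.LT.H556.A0 Fermat.Agent.LT.T7 Fermat.Agent.LT.T7.L2Q

attribute [local instance] Fermat.Agent.LT.T5.instMeasurableSpaceG

section Top

variable {P : EKCond}
variable {F : Type} [Field F] [NumberField F]

/-- The extension of a nonzero ideal is nonzero. -/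
theorem upQ_ne_bot60 {𝔫 : Ideal (𝓞 ℚ)} (h : 𝔫 ≠ ⊥) : upQ (F := F) 𝔫 ≠ ⊥ := by
  unfold upQ
  intro h0
  rw [Ideal.map_eq_bot_iff_of_injective (FaithfulSMul.algebraMap_injective (𝓞 ℚ) (𝓞 F))] at h0
  exact h h0

/-- The invariant cusp functions of type `w0` over `ℚ` are the invariant cusp functions of
`T7/Level2.lean` (trivial type, one place). -/
theorem isWFnQ_w0_iff60 {𝔫 : Ideal (𝓞 ℚ)} {r : G ℚ} {u : HeightOneSpectrum (𝓞 ℚ)}
    {ψ : G ℚ → ℂ} : IsWFnQ QWt.w0 𝔫 r u ψ ↔ IsWFn 𝔫 r 1 (fun _ => u) ψ :=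
  ⟨fun h => ⟨h.cusp, h.arch_scalar, h.iw⟩, fun h => ⟨h.cusp, h.arch_scalar, h.iw⟩⟩

/-- The invariant cusp functions of type `w1` over `ℚ` are the invariant cusp functions of type
`wtOne` (one place). -/
theorem isWFnQ_w1_iff60 {𝔫 : Ideal (𝓞 ℚ)} {r : G ℚ} {u : HeightOneSpectrum (𝓞 ℚ)}
    {ψ : G ℚ → ℂ} : IsWFnQ QWt.w1 𝔫 r u ψ ↔ IsWFnT wtOne 𝔫 r 1 (fun _ => u) ψ :=
  ⟨fun h => ⟨h.cusp, h.arch_scalar, h.iw⟩, fun h => ⟨h.cusp, h.arch_scalar, h.iw⟩⟩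

/-- The invariant cusp functions of trivial type. -/
theorem isWFnT_triv_iff60 {K : Type} [Field K] [NumberField K] {𝔫 : Ideal (𝓞 K)} {r : G K}
    {l : ℕ} {o : ℕ → HeightOneSpectrum (𝓞 K)} {ψ : G K → ℂ} :
    IsWFnT T5.trivType 𝔫 r l o ψ ↔ IsWFn 𝔫 r l o ψ :=
  ⟨fun h => ⟨h.cusp, h.arch_scalar, h.iw⟩, fun h => ⟨h.cusp, h.arch_scalar, h.iw⟩⟩

/-- The typed projection for the trivial type is the projection of helper893. -/
theorem projTC_triv_of60 {K : Type} [Field K] [NumberField K] (h : H893.ProjC K) :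
    ProjTC K T5.trivType := by
  intro _ R hR 𝔫₀ 𝔫 h𝔫 hle l o ho ψ hψ
  obtain ⟨ψ₁, h₁, h₂⟩ := h R hR 𝔫₀ 𝔫 h𝔫 hle l o ho ψ hψ
  exact ⟨ψ₁, isWFnT_triv_iff60.2 h₁, fun χ hχ => h₂ χ (isWFnT_triv_iff60.1 hχ)⟩

/-- The typed projection for the trivial type gives the projection of helper893. -/
theorem projC_of_projTC60 {K : Type} [Field K] [NumberField K] (h : ProjTC K T5.trivType) :
    H893.ProjC K := by
  intro R hR 𝔫₀ 𝔫 h𝔫 hle l o ho ψ hψ
  obtain ⟨ψ₁, h₁, h₂⟩ := h T5.isKType_triv R hR 𝔫₀ 𝔫 h𝔫 hle l o ho ψ hψ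
  exact ⟨ψ₁, isWFnT_triv_iff60.1 h₁, fun χ hχ => h₂ χ (isWFnT_triv_iff60.2 hχ)⟩

/-- The leaf `ProjW1C` from the typed projection and the leaf `WtOneKTypeC`. -/
theorem projW1C_of60 (hk : WtOneKTypeC) (h : ProjTC ℚ wtOne) : ProjW1C :=
  fun R hR 𝔫₀ 𝔫 h𝔫 hle l o ho ψ hψ => h hk R hR 𝔫₀ 𝔫 h𝔫 hle l o ho ψ hψ

/-- The data of the comparison are good for every nonzero level. -/
theorem isCompData_comp60 {Φ : HeckeEigensystem F ℂ} {B : L2QBase F}
    (hB : IsL2QBase Φ B) {𝔫 : Ideal (𝓞 ℚ)} (h : 𝔫 ≠ ⊥) : IsCompData (B.comp 𝔫) where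
  cyc := hB.cyc
  base := hB.base
  level_ne := h
  level := rfl
  frame := hB.frame
  frame' := hB.frame'
  aut := hB.aut 𝔫

/-- The orthogonal projection downstairs, per type. -/
theorem proj_down60 (hP0 : H893.ProjC ℚ) (hP1 : ProjW1C) (n : QWt) (R : Frame5 ℚ)
    (hR : IsFrame5 R) (𝔫 : Ideal (𝓞 ℚ)) (h𝔫 : 𝔫 ≠ ⊥) (u : HeightOneSpectrum (𝓞 ℚ))
    (hu : u.asIdeal ∣ 𝔫) (ψ : G ℚ → ℂ) (hψ : T5.IsCuspFn 𝔫 n.type R.r ψ) :
    ∃ ψ₁ : G ℚ → ℂ, IsWFnQ n 𝔫 R.r u ψ₁ ∧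
      ∀ χ : G ℚ → ℂ, IsWFnQ n 𝔫 R.r u χ →
        T5.innerD R.μ R.F (fun x => ψ x - ψ₁ x) χ = 0 := by
  cases n with
  | w0 =>
    obtain ⟨ψ₁, h₁, h₂⟩ := hP0 R hR 𝔫 𝔫 h𝔫 le_rfl 1 (fun _ => u) (fun _ => hu) ψ hψ
    exact ⟨ψ₁, isWFnQ_w0_iff60.2 h₁, fun χ hχ => h₂ χ (isWFnQ_w0_iff60.1 hχ)⟩
  | w1 =>
    obtain ⟨ψ₁, h₁, h₂⟩ := hP1 R hR 𝔫 𝔫 h𝔫 le_rfl 1 (fun _ => u) (fun _ => hu) ψ hψ
    exact ⟨ψ₁, isWFnQ_w1_iff60.2 h₁, fun χ hχ => h₂ χ (isWFnQ_w1_iff60.1 hχ)⟩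

/-- **The assembly of an `L2QData`** from a common part and `g`-parts at the bad elements. -/
theorem isL2QData_toData60 {Φ : HeckeEigensystem F ℂ} {B : L2QBase F}
    (hB : IsL2QBase Φ B) (hP' : H893.ProjC F) (hP0 : H893.ProjC ℚ) (hP1 : ProjW1C)
    (Fm : G F → L2QFam F) (hFm : ∀ g : G F, B.IsBad g → IsL2QFam Φ B g (Fm g)) :
    IsL2QData Φ (B.toData Fm) where
  comp := fun g hg => isCompData_comp60 hB (hFm g hg).level_ne
  level_le := hB.level_le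
  level_g := fun g hg => (hFm g hg).level_g
  mem_S' := hB.mem_S'
  mem_S'_g := fun g hg => (hFm g hg).mem_S'_g
  under := hB.under
  const := hB.const
  orbit_rel := hB.orbit_rel
  orbit_ne := hB.orbit_ne
  orbit_over := hB.orbit_over
  orbit_level := hB.orbit_level
  orbit_good := hB.orbit_good
  u_level := fun g hg => (hFm g hg).u_level
  ekprod_up := fun g X k m hg hX => (hFm g hg).ekprod_up X k m hX
  ekprod_down := fun n g X k m hg hX => (hFm g hg).ekprod_down n X k m hX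
  reg_up := fun g X k m hg hX hm => (hFm g hg).reg_up X k m hX hm
  reg_down := fun n g X k m hg hX hm => (hFm g hg).reg_down n X k m hX hm
  matched := fun g X k m hg hX hm => (hFm g hg).matched X k m hX hm
  base_ne := fun g hg => (hFm g hg).base_ne
  op_up := fun g X k m hg hX => (hFm g hg).op_up X k m hX
  kill_up := fun g X k m hg hX => (hFm g hg).kill_up X k m hX
  proj_up := fun g hg ψ hψ =>
    hP' B.R' hB.frame' B.𝔑₀ (upQ (F := F) (Fm g).𝔫) (upQ_ne_bot60 (hFm g hg).level_ne)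
      (hFm g hg).level_g 2 B.o (fun j => (hB.mem_S' (B.o j)).1 (hB.orbit_level j)) ψ hψ
  op_down := fun n g X k m hg hX => (hFm g hg).op_down n X k m hX
  class_down := fun n g hg => (hFm g hg).class_down n
  comm_down := fun n g hg => (hFm g hg).comm_down n
  kill_down := fun n g X k m hg hX => (hFm g hg).kill_down n X k m hX
  proj_down := fun n g hg ψ hψ =>
    proj_down60 hP0 hP1 n B.R hB.frame (Fm g).𝔫 (hFm g hg).level_ne B.u (hFm g hg).u_level ψ hψ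

/-- The data assembled from a common part are stable. -/
theorem isStableQ_toData60 {Φ : HeckeEigensystem F ℂ} {B : L2QBase F}
    (hB : IsL2QBase Φ B) (Fm : G F → L2QFam F) : IsStableQ (B.toData Fm) := by
  obtain ⟨𝔫₀, h0, h1, -, -⟩ := hB.base_level
  exact ⟨𝔫₀, h0, h1⟩

/-- **THE TOP OF THE FIRST CUT of T7.L2Q.1, stable form**: the supply from the setup, the
orthogonal projections (over `F`; over `ℚ` for the two types), and the families for one bad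
element. -/
theorem supplyQSC_of60 (hS : SetupQC F) (hP' : H893.ProjC F) (hP0 : H893.ProjC ℚ)
    (hP1 : ProjW1C) (hF : FamQC P F) : SupplyQSC P F := by
  intro h3 hquad Φ hΦ hconst hPΦ
  obtain ⟨B, hB⟩ := hS h3 hquad Φ hΦ hconst
  have hex : ∀ g : G F, ∃ Fm : L2QFam F, B.IsBad g → IsL2QFam Φ B g Fm := by
    intro g
    by_cases hg : B.IsBad g
    · obtain ⟨Fm, h⟩ := hF h3 hquad Φ hΦ hconst hPΦ B hB g hg
      exact ⟨Fm, fun _ => h⟩
    · exact ⟨⟨⊥, fun _ => 0, fun _ _ _ _ => 0, fun _ _ _ _ _ => 0, fun _ => 0⟩,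
        fun h => absurd h hg⟩
  choose Fm hFm using hex
  exact ⟨B.toData Fm, isL2QData_toData60 hB hP' hP0 hP1 Fm hFm, isStableQ_toData60 hB Fm⟩

/-- **THE TOP OF THE FIRST CUT of T7.L2Q.1** (target `L2Q.SupplyQC P F`, VERBATIM). -/
theorem supplyQC_of60 (hS : SetupQC F) (hP' : H893.ProjC F) (hP0 : H893.ProjC ℚ)
    (hP1 : ProjW1C) (hF : FamQC P F) : SupplyQC P F :=
  fun h3 hquad Φ hΦ hconst hPΦ =>
    let ⟨Dt, hDt, _⟩ := supplyQSC_of60 hS hP' hP0 hP1 hF h3 hquad Φ hΦ hconst hPΦ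
    ⟨Dt, hDt⟩

end Top

end Fermat.Agent.LT.T7.L2Q.H60

end
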