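import Mathlib
import Fermat.Agent.LT.T7.H29.UpCore2
import Fermat.Agent.LT.T7.H732.SupplyQFam60

/-!
# Row LT, tower T7, node T7.L2Q.1 `SupplyQC` (owner of registry row 2151: helper60):
# THE CUT OF RECORD, v2 = first cut + THE RAMIFIED PRIME + the form of record `H29.SupplyQSC`

OFF-MAIN.  Definitions, frozen Props, PROVED tops.  No hole, nothing assumed.  ADDITIVE (new names
only, namespace `Fermat.Agent.LT.T7.L2Q.H60`); `H60/SupplyQSpec.lean` (945eb304) and
`H60/SupplyQTop.lean` (f21d5605) are UNCHANGED.  Vocabulary, byte-identical copies: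
`T7/H826/Level2Q.lean` v1.1 (d2117efc), `T7/H29/UpCore.lean` + `UpCore2.lean` (helper29),
`T7/H962/SupplyQSpec.lean` + `SupplyQTop.lean` (helper962), `T7/H732/SupplyQFamSpec.lean` +
`SupplyQFamTop.lean` + `SupplyQFam60.lean` (helper732, second cut).

    supplyQSC29_of60        : SetupQRC60 F → H893.ProjC F → (∀ n, H962.ProjQC962 n)
                                → FamQRC60 P F → H29.SupplyQSC P F      (FORM OF RECORD, VERBATIM)
    famQRC_of_pre60         : PreQRC60 P F → (the 8 leaves of helper732) → FamQRC60 P F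
    supplyQSC29_of_leaves60 : SetupQRC60 F → H893.ProjC F → (∀ n, H962.ProjQC962 n)
                                → PreQRC60 P F → (the 8 leaves) → H29.SupplyQSC P F
    traceWordsQRegP_of_leaves60 : … → T7.TraceWordsQRegP P F             (target VERBATIM)

## 1. The ramified prime (referee helper739, note 17973; cyclic analogue: helper666, 17915)

The common part `IsL2QBase` does not say that the prime `3` (the only prime which ramifies in
`F = ℚ(√-3)`) lies in `S`.  The nodes `FamQC`, `H732.PreQ60C732` quantify over ALL common parts;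
for a common part with `3 ∉ S` the members downstairs would be spherical at `3` and matched with
the unit at the ramified place over `3`, which is false in general (the descent of the wall has
the central character `χ₋₃`, ramified at `3`).  So the nodes of record carry the hypothesis

    IsRamQ60 B :  3 ∈ B.S

(with `under_exact`, `fibre`: the place over `3` lies in `S'`, i.e. divides the base level), and
the setup of record `SetupQRC60` provides it (`𝔫₀ := 3 · u · …`; free).

## 2. The form of record (ruling of the architect helper797, 15:58Z)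

`H29.SupplyQSC P F` = `L2Q.SupplyQC P F` + `H29.IsStableQ` (`σ` preserves the frame at the base
level, and `S'` contains every place over a prime of `S`).  Both follow from `IsL2QBase`
(`aut` + `base_level`; `under_exact` + `fibre`): `isStableQ29_toData60`.

## 3. The projections

Downstairs the top takes the leaves `H962.ProjQC962 n` (CLOSED for both types by helper40,
`T7/H40/ProjQ.lean`, `projQC962_closed40`); upstairs `H893.ProjC F` (row 2110).
-/

set_option autoImplicit false

open AutomorphicForm IsDedekindDomain NumberField MeasureTheory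
open scoped ComplexConjugate

noncomputable section

namespace Fermat.Agent.LT.T7.L2Q.H60

open Fermat.Agent.LT.H556 Fermat.Agent.LT.H556.A0 Fermat.Agent.LT.T7 Fermat.Agent.LT.T7.L2Q

attribute [local instance] Fermat.Agent.LT.T5.instMeasurableSpaceG

/-! ## 1. The nodes of record -/

section Spec

/-- **The ramified prime lies in `S`**: `3 ∈ S` (`3` is the only prime which ramifies in
`ℚ(√-3)`). -/
def IsRamQ60 {F : Type} [Field F] [NumberField F] (B : L2QBase F) : Prop := (3 : ℕ) ∈ B.S

variable (P : EKCond)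
variable (F : Type) [Field F] [NumberField F]

/-- **LEAF T7.L2Q.1.C0 OF RECORD = SETUP over `ℚ` with the ramified prime** (`SetupQC` +
`IsRamQ60`).  Proof: as for `SetupQC` with `𝔫₀ = 3 · u · (Φ.level ∩ ℤ) · ∏ (the exceptional
primes)`, `u ≡ 1 mod 3` prime to the other factors. -/
def SetupQRC60 : Prop :=
  HasSqrtNegThree F → IsImagQuad F →
    ∀ Φ : HeckeEigensystem F ℂ, A0.IsCuspAdelicSph0 F Φ → ConstOnFibresQ Φ →
      ∃ B : L2QBase F, IsL2QBase Φ B ∧ IsRamQ60 B

/-- **NODE T7.L2Q.1.F OF RECORD = FAMILIES over `ℚ`**, for the common parts with `3 ∈ S`. -/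
def FamQRC60 : Prop :=
  HasSqrtNegThree F → IsImagQuad F →
    ∀ Φ : HeckeEigensystem F ℂ, A0.IsCuspAdelicSph0 F Φ → ConstOnFibresQ Φ → P F Φ →
      ∀ B : L2QBase F, IsL2QBase Φ B → IsRamQ60 B → ∀ g : G F, B.IsBad g →
        ∃ Fm : L2QFam F, IsL2QFam Φ B g Fm

/-- **NODE T7.L2Q.1.F0 OF RECORD = PRE over `ℚ`** (construction + geometry), for the common parts
with `3 ∈ S`: the pre-data of helper732 (`H732.IsL2QPre732`) exist. -/
def PreQRC60 : Prop :=
  HasSqrtNegThree F → IsImagQuad F →
    ∀ Φ : HeckeEigensystem F ℂ, A0.IsCuspAdelicSph0 F Φ → ConstOnFibresQ Φ → P F Φ →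
      ∀ B : L2QBase F, IsL2QBase Φ B → IsRamQ60 B → ∀ g : G F, B.IsBad g →
        ∃ E : H732.L2QPre732 F, H732.IsL2QPre732 Φ (H732.toBase962_732 B) g E

end Spec

/-! ## 2. The comparisons with the first forms -/

section Compare

variable {P : EKCond}
variable {F : Type} [Field F] [NumberField F]

theorem setupQC_of_ram60 (h : SetupQRC60 F) : SetupQC F :=
  fun h3 hquad Φ hΦ hconst =>
    let ⟨B, hB, _⟩ := h h3 hquad Φ hΦ hconst
    ⟨B, hB⟩

theorem famQRC_of_famQC60 (h : FamQC P F) : FamQRC60 P F :=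
  fun h3 hquad Φ hΦ hconst hP B hB _ g hg => h h3 hquad Φ hΦ hconst hP B hB g hg

theorem preQRC_of_preQ60C60 (h : H732.PreQ60C732 P F) : PreQRC60 P F :=
  fun h3 hquad Φ hΦ hconst hP B hB _ g hg => h h3 hquad Φ hΦ hconst hP B hB g hg

/-- **THE TOP OF THE SECOND CUT, of record**: the families from the pre-data and the eight
bookkeeping leaves of helper732 (UNCHANGED). -/
theorem famQRC_of_pre60 (h0 : PreQRC60 P F)
    (h1 : H732.EkProdUpQC732 F) (h2 : H732.EkProdDownQC732 F) (h3 : H732.OpUpQC732 F)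
    (h4 : H732.KillUpQC732 F) (h5 : H732.OpDownQC732 F) (h6 : H732.ClassDownQC732 F)
    (h7 : H732.CommDownQC732 F) (h8 : H732.KillDownQC732 F) : FamQRC60 P F := by
  intro h3' hquad Φ hΦ hconst hPΦ B hB hram g hg
  obtain ⟨E, hE⟩ := h0 h3' hquad Φ hΦ hconst hPΦ B hB hram g hg
  exact ⟨H732.toFam60_732 (E.toFam (H732.toBase962_732 B)),
    H732.isL2QFam60_of962_732
      (H732.isL2QFam_toFam732 (H732.isL2QBase962_of60_732 hB) hg hE h1 h2 h3 h4 h5 h6 h7 h8)⟩

end Compare

/-! ## 3. The tops of record -/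

section Top

variable {P : EKCond}
variable {F : Type} [Field F] [NumberField F]

/-- **The assembly of an `L2QData`** with the projections downstairs in the form of helper962
(closed by helper40). -/
theorem isL2QData_toData60' {Φ : HeckeEigensystem F ℂ} {B : L2QBase F}
    (hB : IsL2QBase Φ B) (hP' : H893.ProjC F) (hPQ : ∀ n : QWt, H962.ProjQC962 n)
    (Fm : G F → L2QFam F) (hFm : ∀ g : G F, B.IsBad g → IsL2QFam Φ B g (Fm g)) :
    IsL2QData Φ (B.toData Fm) where
  comp := fun g hg => isCompData_comp60 hB (hFm g hg).level_ne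
  level_le := hB.level_le
  level_g := fun g hg => (hFm g hg).level_g
  mem_S' := hB.mem_S'
  mem_S'_g := fun g hg => (hFm g hg).mem_S'_g
  under := hB.under
  const := hB.const
  orbit_rel := hB.orbit_rel
  orbit_ne := hB.orbit_ne
  orbit_over := hB.orbit_over
  orbit_level := hB.orbit_level
  orbit_good := hB.orbit_good
  u_level := fun g hg => (hFm g hg).u_level
  ekprod_up := fun g X k m hg hX => (hFm g hg).ekprod_up X k m hX
  ekprod_down := fun n g X k m hg hX => (hFm g hg).ekprod_down n X k m hX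
  reg_up := fun g X k m hg hX hm => (hFm g hg).reg_up X k m hX hm
  reg_down := fun n g X k m hg hX hm => (hFm g hg).reg_down n X k m hX hm
  matched := fun g X k m hg hX hm => (hFm g hg).matched X k m hX hm
  base_ne := fun g hg => (hFm g hg).base_ne
  op_up := fun g X k m hg hX => (hFm g hg).op_up X k m hX
  kill_up := fun g X k m hg hX => (hFm g hg).kill_up X k m hX
  proj_up := fun g hg ψ hψ =>
    hP' B.R' hB.frame' B.𝔑₀ (upQ (F := F) (Fm g).𝔫) (upQ_ne_bot60 (hFm g hg).level_ne)
      (hFm g hg).level_g 2 B.o (fun j => (hB.mem_S' (B.o j)).1 (hB.orbit_level j)) ψ hψ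
  op_down := fun n g X k m hg hX => (hFm g hg).op_down n X k m hX
  class_down := fun n g hg => (hFm g hg).class_down n
  comm_down := fun n g hg => (hFm g hg).comm_down n
  kill_down := fun n g X k m hg hX => (hFm g hg).kill_down n X k m hX
  proj_down := fun n g hg ψ hψ =>
    hPQ n B.R hB.frame (Fm g).𝔫 (Fm g).𝔫 (hFm g hg).level_ne le_rfl B.u
      (hFm g hg).u_level ψ hψ

/-- `σ` preserves the frame at the base level of a common part. -/
theorem autPreserves_base60' {Φ : HeckeEigensystem F ℂ} {B : L2QBase F}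
    (hB : IsL2QBase Φ B) : T5.AutPreserves B.s B.𝔑₀ B.R'.μ B.R'.r := by
  obtain ⟨𝔫₀, -, h𝔑, -, -⟩ := hB.base_level
  rw [h𝔑]
  exact hB.aut 𝔫₀

/-- `S'` contains every place over a prime of `S`. -/
theorem full_of_isL2QBase60 {Φ : HeckeEigensystem F ℂ} {B : L2QBase F}
    (hB : IsL2QBase Φ B) (p : ℕ) (hp : p.Prime) (hpS : p ∈ B.S)
    (w : HeightOneSpectrum (𝓞 F)) (hw : ((p : ℕ) : 𝓞 F) ∈ w.asIdeal) : w ∈ B.S' := by
  obtain ⟨-, w₀, hw₀, hpw₀⟩ := hB.under_exact p hpS
  exact hB.fibre p hp w₀ w hpw₀ hw hw₀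

/-- **The data assembled from a common part are STABLE in the form of record**
(`H29.IsStableQ`). -/
theorem isStableQ29_toData60 {Φ : HeckeEigensystem F ℂ} {B : L2QBase F}
    (hB : IsL2QBase Φ B) (Fm : G F → L2QFam F) : H29.IsStableQ (B.toData Fm) :=
  ⟨autPreserves_base60' hB, fun p hp hpS w hw => full_of_isL2QBase60 hB p hp hpS w hw⟩

/-- **THE SUPPLY OVER `ℚ` IN THE FORM OF RECORD** (`H29.SupplyQSC P F`, VERBATIM), first cut of
record: the setup with the ramified prime, the orthogonal projections, the families for one bad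
element (common parts with `3 ∈ S`). -/
theorem supplyQSC29_of60 (hS : SetupQRC60 F) (hP' : H893.ProjC F)
    (hPQ : ∀ n : QWt, H962.ProjQC962 n) (hF : FamQRC60 P F) : H29.SupplyQSC P F := by
  intro h3 hquad Φ hΦ hconst hPΦ
  obtain ⟨B, hB, hram⟩ := hS h3 hquad Φ hΦ hconst
  have hex : ∀ g : G F, ∃ Fm : L2QFam F, B.IsBad g → IsL2QFam Φ B g Fm := by
    intro g
    by_cases hg : B.IsBad g
    · obtain ⟨Fm, h⟩ := hF h3 hquad Φ hΦ hconst hPΦ B hB hram g hg
      exact ⟨Fm, fun _ => h⟩
    · exact ⟨⟨⊥, fun _ => 0, fun _ _ _ _ => 0, fun _ _ _ _ _ => 0, fun _ => 0⟩,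
        fun h => absurd h hg⟩
  choose Fm hFm using hex
  exact ⟨B.toData Fm, isL2QData_toData60' hB hP' hPQ Fm hFm, isStableQ29_toData60 hB Fm⟩

/-- **THE SUPPLY OVER `ℚ` IN THE FORM OF RECORD from the leaves of the two cuts.** -/
theorem supplyQSC29_of_leaves60 (hS : SetupQRC60 F) (hP' : H893.ProjC F)
    (hPQ : ∀ n : QWt, H962.ProjQC962 n) (h0 : PreQRC60 P F)
    (h1 : H732.EkProdUpQC732 F) (h2 : H732.EkProdDownQC732 F) (h3 : H732.OpUpQC732 F)
    (h4 : H732.KillUpQC732 F) (h5 : H732.OpDownQC732 F) (h6 : H732.ClassDownQC732 F)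
    (h7 : H732.CommDownQC732 F) (h8 : H732.KillDownQC732 F) : H29.SupplyQSC P F :=
  supplyQSC29_of60 hS hP' hPQ (famQRC_of_pre60 h0 h1 h2 h3 h4 h5 h6 h7 h8)

/-- The node `L2Q.SupplyQC` (Level2Q, VERBATIM) from the same leaves. -/
theorem supplyQC_of_ram60 (hS : SetupQRC60 F) (hP' : H893.ProjC F)
    (hPQ : ∀ n : QWt, H962.ProjQC962 n) (hF : FamQRC60 P F) : SupplyQC P F :=
  fun h3 hquad Φ hΦ hconst hPΦ =>
    let ⟨Dt, hDt, _⟩ := supplyQSC29_of60 hS hP' hPQ hF h3 hquad Φ hΦ hconst hPΦ
    ⟨Dt, hDt⟩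

/-- **THE QUADRATIC STEP** (target `T7.TraceWordsQRegP P F`, VERBATIM) from the leaves of the
supply, the two core nodes upstairs, the node downstairs and the spectral identity. -/
theorem traceWordsQRegP_of_leaves60 (hS : SetupQRC60 F) (hP' : H893.ProjC F)
    (hPQ : ∀ n : QWt, H962.ProjQC962 n) (h0 : PreQRC60 P F)
    (h1 : H732.EkProdUpQC732 F) (h2 : H732.EkProdDownQC732 F) (h3 : H732.OpUpQC732 F)
    (h4 : H732.KillUpQC732 F) (h5 : H732.OpDownQC732 F) (h6 : H732.ClassDownQC732 F)
    (h7 : H732.CommDownQC732 F) (h8 : H732.KillDownQC732 F)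
    (hE : H29.ExpUpCoreC F) (hN : H29.NonVanCoreC F)
    (hD : L2Q.SpecDownQC F) (hI : L2Q.SpecIdQC F) : TraceWordsQRegP P F :=
  H29.traceWordsQRegP_ofCore2
    (supplyQSC29_of_leaves60 hS hP' hPQ h0 h1 h2 h3 h4 h5 h6 h7 h8) hE hN hD hI

end Top

/-! ## Appendix: the equation lemmas of the definitions of this file are realised HERE -/

theorem eqns_realised_supplyQRam60 : True := by
  have _a1 := @IsRamQ60.eq_1
  have _a2 := @IsRamQ60.eq_def
  have _a3 := @IsRamQ60.eq_unfold
  have _b1 := @SetupQRC60.eq_1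
  have _b2 := @SetupQRC60.eq_def
  have _b3 := @SetupQRC60.eq_unfold
  have _c1 := @FamQRC60.eq_1
  have _c2 := @FamQRC60.eq_def
  have _c3 := @FamQRC60.eq_unfold
  have _d1 := @PreQRC60.eq_1
  have _d2 := @PreQRC60.eq_def
  have _d3 := @PreQRC60.eq_unfold
  trivial

end Fermat.Agent.LT.T7.L2Q.H60

end
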