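import Mathlib
import Fermat.Agent.LT.T7.H563.ProdMtQSpec
import Fermat.Agent.LT.T7.H893.SupplySphSpec

/-!
# Row LT, tower T7, quadratic step, node T7.L2Q.1.H2b.3 `PQ563.SphHypQC563` (node of the first cut
# of `CQ801.ProdMtQC801` by helper563): THE CUT -- Spec

OFF-MAIN (helper60, owner of the parent node T7.L2Q.1, registry row 2151).  Definitions and
frozen Props only (the proved top is `SphHypQTop.lean`).  No hole, nothing assumed.  ADDITIVE
(new names only, suffix `60`).  MIRROR over `ℚ` of the cut of the cubic node `H893.SphHypC893`,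
`T7/H893/SupplySphSpec.lean` (helper893@dc5b9ccb3, sha256 03a16fa2), on
`T7/H563/ProdMtQSpec.lean` (helper563@9640e735e); byte-identical copies.

    sphHypQC_of60 : T6.T6Out → SphInvC893 ℚ → SphInvC893 F → SphInertQC60 F → SphSplitQC60 F
        → PQ563.SphHypQC563 F                                                  (VERBATIM)

* `H893.SphInvC893 ℚ`, `H893.SphInvC893 F`: the leaf of helper893 (ONE field), AS IT IS (closed
  for every number field: helper165, helper315, helper909, helper966, helper186).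
* **`SphInertQC60 F`** (LEAF [M], T6): `H893.SphInertC893` for `F/ℚ`: the hypotheses
  `D.l ≠ 2`, `TotCplx K` (not used by the proofs) are replaced by `IsImagQuad F`, `D.l = 2`.
* **`SphSplitQC60 F`** (LEAF [L], T6 + Satake): `H893.SphSplitC893` for `F/ℚ`, same change.

FALSITY CHECKS: those of helper893 (the statements are the cubic ones for `K = ℚ`, `K' = F`,
`ℓ = 2`; `T6.FundLemmaC`, `T6.InstExtC`, `T6.InstSplitC` are stated for every prime degree).
-/

set_option autoImplicit false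

open AutomorphicForm IsDedekindDomain NumberField MeasureTheory
open scoped ComplexConjugate

noncomputable section

namespace Fermat.Agent.LT.T7.H60

open Fermat.Agent.LT.H556 Fermat.Agent.LT.H556.A0 Fermat.Agent.LT.T7
open Fermat.Agent.LT.T7.H305 Fermat.Agent.LT.T7.H893 Fermat.Agent.LT.T7.L2Q

attribute [local instance] Fermat.Agent.LT.T5.instMeasurableSpaceG

section Leaves

variable (F : Type) [Field F] [NumberField F]

/-- **LEAF T7.L2Q.1.H2b.3b = SPH-INERT over `ℚ` [M] (T6: the fundamental lemma).**  The clause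
`inert` of `CQ801.LocHypQb801` at a place `v ∉ T₀` (unramified) with ONE place `w` over it,
levels `0`, spherical components related by the base change `T6.IsBC`.  Mirror of
`H893.SphInertC893`. -/
def SphInertQC60 : Prop :=
  T6.T6Out → IsImagQuad F →
  ∀ D : CompData ℚ F, IsCompData D → IsCycExt ℚ F D.l → D.l = 2 →
    ∀ (T₀ : Finset (HeightOneSpectrum (𝓞 ℚ))), UnramOut305 (K' := F) T₀ →
    ∀ v : HeightOneSpectrum (𝓞 ℚ), v ∉ T₀ →
    ∀ w : HeightOneSpectrum (𝓞 F), PlaceOver ℚ F v w →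
      (∀ w' : HeightOneSpectrum (𝓞 F), PlaceOver ℚ F v w' → w' = w) →
    ∀ (nw mv : ℕ), nw = 0 → mv = 0 →
    ∀ (φ : GL (Fin 2) (w.adicCompletion F) → ℂ) (f : GL (Fin 2) (v.adicCompletion ℚ) → ℂ)
      (A Av : (ℤ × ℤ) →₀ ℂ), IsSphFn893 φ A → IsSphFn893 f Av →
      T6.IsBC D.l (Ideal.absNorm v.asIdeal) A Av →
    ∀ (e : ℕ) (i : v.adicCompletion ℚ →+* w.adicCompletion F)
      (sw : w.adicCompletion F ≃+* w.adicCompletion F),
      (∀ x : ℚ, i (algebraMap ℚ (v.adicCompletion ℚ) x)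
        = algebraMap F (w.adicCompletion F) (algebraMap ℚ F x)) →
      (∀ y : F, sw (algebraMap F (w.adicCompletion F) y)
        = algebraMap F (w.adicCompletion F) (D.s.σ y)) →
      T6.IsLocalExt (v.adicCompletion ℚ) (w.adicCompletion F) D.l e i sw →
      (∀ (δ : GL (Fin 2) (w.adicCompletion F)) (γ : GL (Fin 2) (v.adicCompletion ℚ))
          (c c' : ℂ), T6.IsReg γ →
          IsConj (T6.twNorm sw D.l δ) (Matrix.GeneralLinearGroup.map i γ) →
          T6.IsTwOrbSum sw nw φ δ c → T6.IsOrbSum mv f γ c' → c = c') ∧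
        ∀ (γ : GL (Fin 2) (v.adicCompletion ℚ)) (c' : ℂ), T6.IsReg γ →
          ¬ T6.IsNormFrom D.l i sw γ → T6.IsOrbSum mv f γ c' → c' = 0

/-- **LEAF T7.L2Q.1.H2b.3c = SPH-SPLIT over `ℚ` [L] (T6 + Satake).**  The clause `split` of
`CQ801.LocHypQb801` at a place `v ∉ T₀` (unramified) with at least two places over it, levels
`0`, spherical components whose Satake transforms multiply (the split clause of `SphOut893`).
Mirror of `H893.SphSplitC893`. -/
def SphSplitQC60 : Prop :=
  T6.T6Out → IsImagQuad F →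
  ∀ D : CompData ℚ F, IsCompData D → IsCycExt ℚ F D.l → D.l = 2 →
    ∀ (T₀ : Finset (HeightOneSpectrum (𝓞 ℚ))), UnramOut305 (K' := F) T₀ →
    ∀ v : HeightOneSpectrum (𝓞 ℚ), v ∉ T₀ →
      (∃ w₁ w₂ : HeightOneSpectrum (𝓞 F),
        PlaceOver ℚ F v w₁ ∧ PlaceOver ℚ F v w₂ ∧ w₁ ≠ w₂) →
    ∀ (n : HeightOneSpectrum (𝓞 F) → ℕ) (m : HeightOneSpectrum (𝓞 ℚ) → ℕ),
      (∀ w : HeightOneSpectrum (𝓞 F), PlaceOver ℚ F v w → n w = 0) → m v = 0 →
    ∀ (φ₀ : ∀ w : HeightOneSpectrum (𝓞 F), GL (Fin 2) (w.adicCompletion F) → ℂ)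
      (f : GL (Fin 2) (v.adicCompletion ℚ) → ℂ)
      (A : HeightOneSpectrum (𝓞 F) → (ℤ × ℤ) →₀ ℂ) (Av : (ℤ × ℤ) →₀ ℂ),
      IsSphFn893 f Av →
      (∀ w : HeightOneSpectrum (𝓞 F), PlaceOver ℚ F v w → IsSphFn893 (φ₀ w) (A w)) →
      (∀ w : ℕ → HeightOneSpectrum (𝓞 F), (∀ j : ℕ, PlaceOver ℚ F v (w j)) →
        (∀ j j' : ℕ, j < D.l → j' < D.l → w j = w j' → j = j') →
        ∀ x y : ℂ, x ≠ 0 → y ≠ 0 →
          satT893 (Ideal.absNorm v.asIdeal) Av x y
            = ∏ j ∈ Finset.range D.l, satT893 (Ideal.absNorm v.asIdeal) (A (w j)) x y) →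
      ∃ (w : ℕ → HeightOneSpectrum (𝓞 F))
        (i : ∀ j : ℕ, v.adicCompletion ℚ ≃+* (w j).adicCompletion F),
        (∀ j : ℕ, PlaceOver ℚ F v (w j)) ∧ (∀ j : ℕ, T5.PlaceRel D.s (w (j + 1)) (w j)) ∧
        (∀ j : ℕ, 0 < j → j < D.l → w j ≠ w 0) ∧
        (∀ (j : ℕ) (x : ℚ), i j (algebraMap ℚ (v.adicCompletion ℚ) x)
          = algebraMap F ((w j).adicCompletion F) (algebraMap ℚ F x)) ∧
        (∀ (j : ℕ) (x : v.adicCompletion ℚ), Valued.v (i j x) = Valued.v x) ∧
        (∀ j : ℕ, n (w j) = m v) ∧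
          T6.IsConvProd (T6.InU (m v)) D.l
            (fun j g => φ₀ (w j)
              (Matrix.GeneralLinearGroup.map ((i j : v.adicCompletion ℚ ≃+* _) :
                v.adicCompletion ℚ →+* (w j).adicCompletion F) g))
            f

end Leaves

/-! ## Appendix: the equation lemmas of the definitions of this file are realised HERE -/

theorem eqns_realised_sphHypQ60 : True := by
  have _h0 := @SphInertQC60.eq_1
  have _h1 := @SphSplitQC60.eq_1
  have _g0 := @SphInertQC60.eq_def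
  have _g1 := @SphSplitQC60.eq_def
  trivial

end Fermat.Agent.LT.T7.H60

end
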