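import Mathlib
import Fermat.Agent.LT.T7.H60.SphHypQSpec

/-!
# Row LT, tower T7, quadratic step, node T7.L2Q.1.H2b.3 `PQ563.SphHypQC563`: THE CUT -- Top

OFF-MAIN (helper60).  No hole, nothing assumed.  ADDITIVE.  Mirror of `H893.sphHypC_of893`.

    sphHypQC_of60 : T6.T6Out → SphInvC893 ℚ → SphInvC893 F → SphInertQC60 F → SphSplitQC60 F
        → PQ563.SphHypQC563 F                                                  (VERBATIM)
-/

set_option autoImplicit false

open AutomorphicForm IsDedekindDomain NumberField MeasureTheory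
open scoped ComplexConjugate

noncomputable section

namespace Fermat.Agent.LT.T7.H60

open Fermat.Agent.LT.H556 Fermat.Agent.LT.H556.A0 Fermat.Agent.LT.T7
open Fermat.Agent.LT.T7.H305 Fermat.Agent.LT.T7.H893 Fermat.Agent.LT.T7.L2Q

attribute [local instance] Fermat.Agent.LT.T5.instMeasurableSpaceG

section Top

variable {F : Type} [Field F] [NumberField F]

/-- **THE TOP OF THE CUT OF `PQ563.SphHypQC563`.** -/
theorem sphHypQC_of60 (ht6 : T6.T6Out) (hInv : SphInvC893 ℚ) (hInv' : SphInvC893 F)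
    (hInert : SphInertQC60 F) (hSplit : SphSplitQC60 F) : PQ563.SphHypQC563 F := by
  intro hquad D hD hcyc hl μr _ μc _ T₀ hT₀ n m hnm T _ φ₀ Φ f₀ F0 F1 h hS
  refine
    { inv_up := ?_
      inv_down := ?_
      arch_up := h.arch_up
      arch_down0 := h.arch_down0
      arch_down1 := h.arch_down1
      inert := ?_
      split := ?_
      arch := h.arch }
  · intro v hv w hvw
    by_cases hv0 : v ∈ T₀
    · exact h.inv_up v hv0 w hvw
    · obtain ⟨A, Av, -, hφ, -, -⟩ := hS v hv hv0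
      rw [hnm.2 v w hv0 hvw]
      exact hInv' w (φ₀ w) (A w) (hφ w hvw)
  · intro v hv
    by_cases hv0 : v ∈ T₀
    · exact h.inv_down v hv0
    · obtain ⟨A, Av, hf, -, -, -⟩ := hS v hv hv0
      rw [hnm.1 v hv0]
      exact hInv v (f₀ v) Av hf
  · intro v hv w hvw huniq e i sw hi hsw hext
    by_cases hv0 : v ∈ T₀
    · exact h.inert v hv0 w hvw huniq e i sw hi hsw hext
    · obtain ⟨A, Av, hf, hφ, hBC, -⟩ := hS v hv hv0
      exact hInert ht6 hquad D hD hcyc hl T₀ hT₀ v hv0 w hvw huniq (n w) (m v)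
        (hnm.2 v w hv0 hvw) (hnm.1 v hv0) (φ₀ w) (f₀ v) (A w) Av (hφ w hvw) hf
        (hBC w hvw huniq) e i sw hi hsw hext
  · intro v hv hsp
    by_cases hv0 : v ∈ T₀
    · exact h.split v hv0 hsp
    · obtain ⟨A, Av, hf, hφ, -, hprod⟩ := hS v hv hv0
      exact hSplit ht6 hquad D hD hcyc hl T₀ hT₀ v hv0 hsp n m
        (fun w hvw => hnm.2 v w hv0 hvw) (hnm.1 v hv0) φ₀ (f₀ v) A Av hf hφ hprod

/-- The statement of the node, verbatim. -/
example (ht6 : T6.T6Out) (hInv : SphInvC893 ℚ) (hInv' : SphInvC893 F)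
    (hInert : SphInertQC60 F) (hSplit : SphSplitQC60 F) :
    Fermat.Agent.LT.T7.PQ563.SphHypQC563 F := sphHypQC_of60 ht6 hInv hInv' hInert hSplit

end Top

end Fermat.Agent.LT.T7.H60

end
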