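import Mathlib
import Fermat.Agent.LT.T7.H60.SphHypQSpec
import Fermat.Agent.LT.T7.H165.SphInert

/-!
# Row LT, tower T7, quadratic step, leaf T7.L2Q.1.H2b.3b `SphInertQC60` (cut of helper60 of the
# node `PQ563.SphHypQC563`)

OFF-MAIN (helper60).  `sphInertQC60 F : SphInertQC60 F` VERBATIM, unconditional (the hypothesis
`T6Out` is in the Prop).  Port of `H165.sphInertC165` (helper165@013501c49, the cubic leaf
`H893.SphInertC893`; its proof does not use `D.l ≠ 2`, `TotCplx K`), on his lemmas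
`ramIdx_eq_oneS165`, `ramIdx_uniqueS165`, `exists_genS165`, `placeOver_iffS165`,
`placeOver_of_leS165`.
-/

set_option autoImplicit false
set_option linter.style.haveILetI false
set_option linter.unusedSectionVars false

open AutomorphicForm IsDedekindDomain NumberField MeasureTheory
open scoped ComplexConjugate

noncomputable section

namespace Fermat.Agent.LT.T7.H60

open Fermat.Agent.LT.H556 Fermat.Agent.LT.H556.A0 Fermat.Agent.LT Fermat.Agent.LT.T7
open Fermat.Agent.LT.T7.H305 Fermat.Agent.LT.T7.H893 Fermat.Agent.LT.T7.H165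
open Fermat.Agent.LT.T7.L2Q

/-- **LEAF T7.L2Q.1.H2b.3b = SPH-INERT over `ℚ`**, VERBATIM. -/
theorem sphInertQC60 (F : Type) [Field F] [NumberField F] : SphInertQC60 F := by
  intro hT6 _hquad D _hD hcyc _hl2 T₀ hunram v hv w hvw huniq nw mv hnw hmv φ f A Av hφ hf hBC
    e i sw hi hsw hext
  obtain ⟨_, _, _, _, _, hInstLoc, hInstExt, _, _, _, _, _, _, hFL, _⟩ := hT6
  subst hnw hmv
  -- `e = 1`
  obtain ⟨x, hxv, hxw⟩ := hunram v hv w hvw
  have he : e = 1 := ramIdx_eq_oneS165 v w x hxv hxw e hext.e_pos i hi hext.val_i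
  subst he
  -- the local fields
  have hkv := hInstLoc ℚ v
  have hkw := hInstLoc F w
  have hkw' : T6.IsLocalField (w.adicCompletion F) (Ideal.absNorm v.asIdeal ^ D.l) := by
    haveI := hcyc.galois
    obtain ⟨s, hs⟩ := exists_genS165 D.l hcyc
    obtain ⟨e₀, i₀, sw₀, hi₀, _, hext₀, hN₀⟩ :=
      hInstExt ℚ F s hs (hcyc.degree ▸ hcyc.prime) v w (placeOver_iffS165 hvw)
        (fun w' hw' => huniq w' (placeOver_of_leS165 hw'))
    have he : 1 = e₀ := ramIdx_uniqueS165 v w 1 e₀ i i₀ hi hi₀ hext.val_i hext₀.val_i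
    rw [← he, Nat.div_one, hcyc.degree] at hN₀
    rw [← hN₀]
    exact hkw
  -- the functions
  have hφe : φ = fun g => A (T6.cartan g) := funext hφ.2
  have hfe : f = fun g => Av (T6.cartan g) := funext hf.2
  subst hφe hfe
  refine ⟨?_, ?_⟩
  · intro δ γ c c' hreg hconj hc hc'
    exact hFL.1 (v.adicCompletion ℚ) (w.adicCompletion F) (Ideal.absNorm v.asIdeal) D.l i sw
      hkv hkw' hext hcyc.prime A Av hφ.1 hf.1 hBC δ γ c c' hreg trivial hconj hc hc'
  · intro γ c' hreg hnn hc'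
    exact hFL.2 (v.adicCompletion ℚ) (w.adicCompletion F) (Ideal.absNorm v.asIdeal) D.l i sw
      hkv hkw' hext hcyc.prime A Av hφ.1 hf.1 hBC γ c' hreg hnn hc'

end Fermat.Agent.LT.T7.H60

end
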