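import Mathlib
import Fermat.Agent.LT.T7.H60.SphHypQSpec
import Fermat.Agent.LT.T7.H388.SphSplit

/-!
# Row LT, tower T7, quadratic step, leaf T7.L2Q.1.H2b.3c `SphSplitQC60` (cut of helper60 of the
# node `PQ563.SphHypQC563`)

OFF-MAIN (helper60).  `sphSplitQC60 F : SphSplitQC60 F` VERBATIM, unconditional (the hypothesis
`T6Out` is in the Prop).  Port of `H388.sphSplitC388` (helper388@8a62da2ee, the cubic leaf
`H893.SphSplitC893`; its proof does not use `D.l ≠ 2`, `TotCplx K`), on his lemmas
`enumExists388`, `cartan_map388`, `satT_inj388` and `T3.H681.split_sph681` (helper681).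
-/

set_option autoImplicit false
set_option linter.style.haveILetI false
set_option linter.unusedSectionVars false

open AutomorphicForm IsDedekindDomain NumberField MeasureTheory
open scoped ComplexConjugate

noncomputable section

namespace Fermat.Agent.LT.T7.H60

open Fermat.Agent.LT.H556 Fermat.Agent.LT.H556.A0 Fermat.Agent.LT Fermat.Agent.LT.T7
open Fermat.Agent.LT.T7.H305 Fermat.Agent.LT.T7.H893 Fermat.Agent.LT.T7.H388
open Fermat.Agent.LT.T7.L2Q

/-- **LEAF T7.L2Q.1.H2b.3c = SPH-SPLIT over `ℚ`**, VERBATIM. -/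
theorem sphSplitQC60 (F : Type) [Field F] [NumberField F] : SphSplitQC60 F := by
  intro hT6 _hquad D hD hcyc _hl2 T₀ hun v hv hex n m hn hm φ₀ f A Av hf hφ hsat
  obtain ⟨w, i, hw, hrel, hne0, hi1, hi2⟩ := enumExists388 ℚ F hT6 D hD hcyc T₀ hun v hv hex
  -- the enumeration is injective on `range l`
  have hstep : ∀ j j' : ℕ, w (j + 1) = w (j' + 1) → w j = w j' := by
    intro j j' h
    have h1 : (w j).asIdeal = (w j').asIdeal := by
      rw [show (w j).asIdeal = _ from hrel j, show (w j').asIdeal = _ from hrel j', h]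
    exact HeightOneSpectrum.ext h1
  have hshift : ∀ d j : ℕ, w (j + d) = w j → w d = w 0 := by
    intro d j
    induction j with
    | zero =>
      intro h
      rwa [Nat.zero_add] at h
    | succ j ih =>
      intro h
      apply ih
      apply hstep
      rw [show j + d + 1 = j + 1 + d by omega]
      exact h
  have hinj : ∀ j j' : ℕ, j < D.l → j' < D.l → w j = w j' → j = j' := by
    intro j j' hj hj' h
    by_contra hne
    rcases Nat.lt_or_gt_of_ne hne with h1 | h1
    · refine hne0 (j' - j) (by omega) (by omega) (hshift (j' - j) j ?_)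
      rw [show j + (j' - j) = j' by omega]
      exact h.symm
    · refine hne0 (j - j') (by omega) (by omega) (hshift (j - j') j' ?_)
      rw [show j' + (j - j') = j by omega]
      exact h
  refine ⟨w, i, hw, hrel, hne0, hi1, hi2, fun j => by rw [hn (w j) (hw j), hm], ?_⟩
  rw [hm]
  -- the components are spherical functions downstairs
  have hcomp : (fun (j : ℕ) (g : GL (Fin 2) (v.adicCompletion ℚ)) => φ₀ (w j)
        (Matrix.GeneralLinearGroup.map ((i j : v.adicCompletion ℚ ≃+* _) :
          v.adicCompletion ℚ →+* (w j).adicCompletion F) g))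
      = fun (j : ℕ) (g : GL (Fin 2) (v.adicCompletion ℚ)) => A (w j) (T6.cartan g) := by
    funext j g
    rw [(hφ (w j) (hw j)).2, cartan_map388 _ (fun x => hi2 j x)]
  rw [hcomp]
  -- the product is spherical, with Satake transform the product
  obtain ⟨Av', hAv', hprod, hsat', -⟩ := T3.H681.split_sph681 v D.l hcyc.prime.pos
    (fun j => A (w j)) (fun j _ => (hφ (w j) (hw j)).1)
  have hq : 0 < Ideal.absNorm v.asIdeal := by
    rw [Nat.pos_iff_ne_zero, Ne, Ideal.absNorm_eq_zero_iff]
    exact v.ne_bot
  have hEq : Av = Av' := by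
    refine satT_inj388 (Ideal.absNorm v.asIdeal) hq Av Av' hf.1 hAv' (fun x y hx hy => ?_)
    rw [hsat' x y hx hy]
    exact hsat w hw hinj x y hx hy
  have hff : f = fun g => Av' (T6.cartan g) := by
    funext g
    rw [hf.2 g, hEq]
  rw [hff]
  exact hprod

end Fermat.Agent.LT.T7.H60

end
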