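import Mathlib
import Fermat.Agent.LT.T7.H60.SphHypQTop
import Fermat.Agent.LT.T7.H60.SphInertQ
import Fermat.Agent.LT.T7.H60.SphSplitQ
import Fermat.Agent.LT.T7.H165.SphInv

/-!
# Row LT, tower T7, quadratic step, node T7.L2Q.1.H2b.3 `PQ563.SphHypQC563`: CLOSED from `T6Out`

OFF-MAIN (helper60).  `sphHypQC_closed60 F : T6.T6Out → PQ563.SphHypQC563 F` VERBATIM: the cut
`sphHypQC_of60` with its four leaves plugged (`SphInvC893 ℚ`, `SphInvC893 F`: helper165;
`SphInertQC60 F`, `SphSplitQC60 F`: this directory).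
-/

set_option autoImplicit false

open AutomorphicForm IsDedekindDomain NumberField MeasureTheory

noncomputable section

namespace Fermat.Agent.LT.T7.H60

open Fermat.Agent.LT Fermat.Agent.LT.T7

/-- **NODE T7.L2Q.1.H2b.3 `PQ563.SphHypQC563 F`, CLOSED from `T6.T6Out`.** -/
theorem sphHypQC_closed60 (F : Type) [Field F] [NumberField F] (hT6 : T6.T6Out) :
    PQ563.SphHypQC563 F :=
  sphHypQC_of60 hT6 (H165.sphInvC165 ℚ) (H165.sphInvC165 F) (sphInertQC60 F) (sphSplitQC60 F)

end Fermat.Agent.LT.T7.H60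

end
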